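import Fermat.Agent.Ribet.H224.WPNBranch
import Fermat.Agent.Ribet.H495.AlgPSpec
import Fermat.Agent.Ribet.H132.InstA
import Fermat.Agent.Ribet.H132.NodeVal
import Fermat.Agent.Ribet.H7.WildPurity
import Fermat.Agent.A2.Alg.H132.Vert

/-!
# RIBET row 38, WALL-p, W-ALGP leaf WPN = `H495.AlgP.WPNodeLeaf`, VERBATIM  (helper224)

Wild purity at a crossing point of a semistable chart, chart form (`PureAtP`).

Proof (chart adapter of `H704.I6.WildPurityStatement`):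
1. the local ring `O = B_n = locAt F n` at the crossing point is a node ring
   (`H132.exists_isNode_locAt`);
2. `u = a / b` with `a, b ∈ B ∖ (p₁ ∪ p₂)` (`H609.exists_common_denominator`), `g := a b^(p-1)`;
   `g` is horizontally `p`-divisible (`H132.horDiv_of_divisible`, from `DivisibleDiv`);
3. `DeepOne` (`u ∈ 1 + λ^p w V_i`) gives, by Newton steps inside the local ring `V_i`
   (`wpn_newton`), that `g` is a `p`-th power modulo `w ^ k` in `V_i` for EVERY `k`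
   (`wpn_branch_pthPow`);
4. WPUR (`H7.wildPurity`): `g d₂^p = d₁^p s^p (1 + λ^p z)`; `d := b d₂ / (d₁ s)`,
   `u d^p = 1 + λ^p z`, `z ∈ B_n`;
5. `u ∈ 1 + λ^p w V_i` and `u d^p ∈ 1 + λ^p V_i` give `d ∈ 1 + λ V_i` (`wpn_branch_close`;
   the sheet label is `j = 0`).
-/

set_option autoImplicit false
set_option linter.unusedSectionVars false
set_option linter.style.haveILetI false

namespace Fermat.Agent.Ribet.H224

open Fermat.Agent.A2 Fermat.Agent.A2.Alg Fermat.Agent.A2.H849 Fermat.Agent.A2.H609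
open Fermat.Agent.Ribet.H704

section Abstract

variable {B F : Type} [CommRing B] [IsDomain B] [IsNoetherianRing B] [IsIntegrallyClosed B]
  [Field F] [Algebra B F] [IsFractionRing B F]

/-- The numerator of `u` is outside the component. -/
theorem wpn_num_notMem (q : Ideal B) [hq : q.IsPrime] {lam w : B} {p : ℕ} (hwq : w ∈ q) {u : F}
    (hdeep : ∃ a b : B, b ∉ q ∧ a - b ∈ Ideal.span {lam ^ p * w} ∧
      u * algebraMap B F b = algebraMap B F a)
    {a b : B} (hb : b ∉ q) (hab : u * algebraMap B F b = algebraMap B F a) : a ∉ q := by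
  obtain ⟨a₁, b₁, hb₁, hab₁, e₁⟩ := hdeep
  have hsub : a₁ - b₁ ∈ q := by
    obtain ⟨s, hs⟩ := Ideal.mem_span_singleton'.1 hab₁
    rw [← hs]
    exact q.mul_mem_left _ (q.mul_mem_left _ hwq)
  have ha₁ : a₁ ∉ q := by
    intro h
    apply hb₁
    have : b₁ = a₁ - (a₁ - b₁) := by ring
    rw [this]
    exact q.sub_mem h hsub
  have hmul : a * b₁ = a₁ * b := by
    apply IsFractionRing.injective B F
    rw [map_mul, map_mul, ← hab, ← e₁]
    ring
  intro ha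
  have h1 : a₁ * b ∈ q := by
    rw [← hmul]
    exact q.mul_mem_right _ ha
  rcases hq.mem_or_mem h1 with h | h
  · exact ha₁ h
  · exact hb h

/-- **WPN, abstract chart form.** -/
theorem wpn_abstract {w : B} (hw0 : w ≠ 0) (p₁ p₂ n : Ideal B) [hp₁ : p₁.IsPrime]
    [hp₂ : p₂.IsPrime] [hn : n.IsPrime]
    [IsDedekindDomain (B ⧸ p₁)] [IsDedekindDomain (B ⧸ p₂)]
    (hinf : p₁ ⊓ p₂ = Ideal.span {w}) (h₁₂ : ¬ p₁ ≤ p₂) (h₂₁ : ¬ p₂ ≤ p₁)
    (htr : (p₁ ⊔ p₂).IsRadical) (h₁ : p₁ ≤ n) (h₂ : p₂ ≤ n)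
    {p : ℕ} (hp : p.Prime) {lam ε η : B} {e : ℕ} (hε : IsUnit ε)
    (hlam : lam ^ (p - 1) = (p : B) * ε) (hη : IsUnit η) (he : 0 < e) (hlamη : lam = η * w ^ e)
    {u : F} (hu : u ≠ 0)
    (hdiv : ∀ V : ValuationSubring F, IsDiscreteValuationRing V →
      (∀ b : B, algebraMap B F b ∈ V) → (algebraMap B F w)⁻¹ ∈ V →
      ∃ h u₀ : F, u₀ ∈ V ∧ u₀⁻¹ ∈ V ∧ u = u₀ * h ^ p)
    (hdeep₁ : ∃ a b : B, b ∉ p₁ ∧ a - b ∈ Ideal.span {lam ^ p * w} ∧
      u * algebraMap B F b = algebraMap B F a)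
    (hdeep₂ : ∃ a b : B, b ∉ p₂ ∧ a - b ∈ Ideal.span {lam ^ p * w} ∧
      u * algebraMap B F b = algebraMap B F a) :
    ∃ d : F, d ≠ 0 ∧
      (∃ a b : B, b ∉ n ∧ a - b ∈ Ideal.span {lam ^ p} ∧
        u * d ^ p * algebraMap B F b = algebraMap B F a) ∧
      (∃ a b : B, b ∉ p₁ ∧ a - b ∈ Ideal.span {lam} ∧
        d * algebraMap B F b = algebraMap B F a) ∧
      (∃ a b : B, b ∉ p₂ ∧ a - b ∈ Ideal.span {lam} ∧
        d * algebraMap B F b = algebraMap B F a) := by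
  -- the node ring
  obtain ⟨X, Y, -, -, -, -, hnode⟩ :=
    H132.exists_isNode_locAt (F := F) p₁ p₂ n hinf h₁₂ h₂₁ htr h₁ h₂
  -- the inverse unit
  obtain ⟨κ, hκ⟩ := hε.exists_right_inv
  have hκu : IsUnit κ := IsUnit.of_mul_eq_one ε (by rw [mul_comm]; exact hκ)
  have hpl : (p : B) = lam ^ (p - 1) * κ := by rw [hlam, mul_assoc, hκ, mul_one]
  have hw : w ∈ p₁ ⊓ p₂ := by
    rw [hinf]
    exact Ideal.mem_span_singleton_self w
  have hw₁ : w ∈ p₁ := hw.1
  have hw₂ : w ∈ p₂ := hw.2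
  -- the branches are discrete valuation rings
  have hV₁ : H132.VertData w p₁ p₂ := ⟨hp₁, hw0, h₂₁, hinf⟩
  have hV₂ : H132.VertData w p₂ p₁ := ⟨hp₂, hw0, h₁₂, by rw [inf_comm]; exact hinf⟩
  haveI hdvr₁ : IsDiscreteValuationRing (locAt F p₁) := hV₁.isDiscreteValuationRing_locAt
  haveI hdvr₂ : IsDiscreteValuationRing (locAt F p₂) := hV₂.isDiscreteValuationRing_locAt
  -- common denominator
  obtain ⟨a, b, hb₁, hb₂, hab⟩ := exists_common_denominator (p₁ := p₁) (p₂ := p₂) (u := u)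
    (by obtain ⟨a, b, hb, -, e⟩ := hdeep₁; exact ⟨a, b, hb, e⟩)
    (by obtain ⟨a, b, hb, -, e⟩ := hdeep₂; exact ⟨a, b, hb, e⟩)
  have ha₁ : a ∉ p₁ := wpn_num_notMem p₁ hw₁ hdeep₁ hb₁ hab
  have ha₂ : a ∉ p₂ := wpn_num_notMem p₂ hw₂ hdeep₂ hb₂ hab
  have hb0 : algebraMap B F b ≠ 0 := wpn_ne_zero hb₁
  have hpp : p = (p - 1) + 1 := by have := hp.two_le; omega
  -- `g = a b ^ (p - 1)`
  have hg₁ : a * b ^ (p - 1) ∉ p₁ := by
    intro h
    rcases hp₁.mem_or_mem h with h | h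
    · exact ha₁ h
    · exact hb₁ (hp₁.mem_of_pow_mem _ h)
  have hg₂ : a * b ^ (p - 1) ∉ p₂ := by
    intro h
    rcases hp₂.mem_or_mem h with h | h
    · exact ha₂ h
    · exact hb₂ (hp₂.mem_of_pow_mem _ h)
  have hgF : algebraMap B F (a * b ^ (p - 1)) = u * algebraMap B F b ^ p := by
    rw [map_mul, map_pow, ← hab]
    conv_rhs => rw [hpp, pow_succ]
    ring
  -- horizontal divisibility
  have hHor : I6.HorDiv (algebraMap B (locAt F n) w) p
      (algebraMap B (locAt F n) (a * b ^ (p - 1))) := by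
    refine H132.horDiv_of_divisible (K := F) hnode hp.ne_zero hu
      (b := algebraMap B (locAt F n) b) ?_ ?_
    · exact hgF
    · intro V hV hO hwV
      exact hdiv V hV (fun b => hO (algebraMap B (locAt F n) b)) hwV
  -- the branch hypotheses
  have hpow₁ : ∀ k : ℕ, ∃ h r t : locAt F n, r ∉ p₁.map (algebraMap B (locAt F n)) ∧
      algebraMap B (locAt F n) (a * b ^ (p - 1)) * r ^ p - h ^ p
        = algebraMap B (locAt F n) w ^ k * t := by
    intro k
    obtain ⟨h, r, t, hr, e⟩ := wpn_branch_pthPow (F := F) p₁ hp hκu hpl hw₁ hdeep₁ hab k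
    refine ⟨algebraMap B _ h, algebraMap B _ r, algebraMap B _ t,
      fun hmem => hr ((algebraMap_mem_map_iff h₁ r).1 hmem), ?_⟩
    rw [← map_pow, ← map_pow, ← map_pow, ← map_mul, ← map_mul, ← map_sub, e]
  have hpow₂ : ∀ k : ℕ, ∃ h r t : locAt F n, r ∉ p₂.map (algebraMap B (locAt F n)) ∧
      algebraMap B (locAt F n) (a * b ^ (p - 1)) * r ^ p - h ^ p
        = algebraMap B (locAt F n) w ^ k * t := by
    intro k
    obtain ⟨h, r, t, hr, e⟩ := wpn_branch_pthPow (F := F) p₂ hp hκu hpl hw₂ hdeep₂ hab k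
    refine ⟨algebraMap B _ h, algebraMap B _ r, algebraMap B _ t,
      fun hmem => hr ((algebraMap_mem_map_iff h₂ r).1 hmem), ?_⟩
    rw [← map_pow, ← map_pow, ← map_pow, ← map_mul, ← map_mul, ← map_sub, e]
  -- WPUR
  obtain ⟨d₁, d₂, s, z, hd₁, hd₂, hs, hwp⟩ := H7.wildPurity (locAt F n) _ _ _ _ _ hnode p hp
    (algebraMap B _ lam) (algebraMap B _ ε) (algebraMap B _ η) e (hε.map _)
    (by rw [← map_pow, hlam, map_mul, map_natCast]) (hη.map _) he
    (by rw [hlamη, map_mul, map_pow])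
    (algebraMap B _ (a * b ^ (p - 1)))
    (fun hmem => hg₁ ((algebraMap_mem_map_iff h₁ _).1 hmem))
    (fun hmem => hg₂ ((algebraMap_mem_map_iff h₂ _).1 hmem)) hHor hpow₁ hpow₂
  have hd₁F : (d₁ : F) ≠ 0 := fun h => hd₁ (Subtype.ext h)
  have hd₂F : (d₂ : F) ≠ 0 := fun h => hd₂ (Subtype.ext h)
  have hsF : (s : F) ≠ 0 := fun h => hs.ne_zero (Subtype.ext h)
  have hwpF := congrArg (fun z : locAt F n => (z : F)) hwp
  simp only [Subalgebra.coe_add, Subalgebra.coe_mul, Subalgebra.coe_pow, Subalgebra.coe_one,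
    coe_algebraMap_locAt] at hwpF
  rw [hgF] at hwpF
  -- the witness
  have hds : (d₁ : F) * (s : F) ≠ 0 := mul_ne_zero hd₁F hsF
  set d : F := algebraMap B F b * (d₂ : F) * ((d₁ : F) * (s : F))⁻¹ with hd
  have hd0 : d ≠ 0 := mul_ne_zero (mul_ne_zero hb0 hd₂F) (inv_ne_zero hds)
  have hud : u * d ^ p = 1 + algebraMap B F lam ^ p * (z : F) := by
    have h1 : u * d ^ p * ((d₁ : F) * (s : F)) ^ p
        = (1 + algebraMap B F lam ^ p * (z : F)) * ((d₁ : F) * (s : F)) ^ p := by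
      rw [hd, mul_pow, mul_pow (algebraMap B F b), inv_pow]
      rw [mul_assoc, mul_assoc, inv_mul_cancel₀ (pow_ne_zero p hds), mul_one]
      rw [mul_pow]
      linear_combination hwpF
    exact mul_right_cancel₀ (pow_ne_zero p hds) h1
  refine ⟨d, hd0, ?_, ?_, ?_⟩
  · obtain ⟨az, sz, hsz, hz⟩ := (mem_locAt_iff n (z : F)).1 z.2
    have hsz0 : algebraMap B F sz ≠ 0 := wpn_ne_zero hsz
    refine ⟨sz + lam ^ p * az, sz, hsz, ?_, ?_⟩
    · rw [add_sub_cancel_left]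
      exact Ideal.mul_mem_right _ _ (Ideal.mem_span_singleton_self _)
    · rw [hud, hz]
      simp only [map_add, map_mul, map_pow]
      field_simp
  · refine wpn_branch_close (F := F) p₁ hp hpl hw₁ hdeep₁ (z := (z : F)) ?_ hud
    obtain ⟨az, sz, hsz, hz⟩ := (mem_locAt_iff n (z : F)).1 z.2
    exact (mem_locAt_iff p₁ _).2 ⟨az, sz, fun h => hsz (h₁ h), hz⟩
  · refine wpn_branch_close (F := F) p₂ hp hpl hw₂ hdeep₂ (z := (z : F)) ?_ hud
    obtain ⟨az, sz, hsz, hz⟩ := (mem_locAt_iff n (z : F)).1 z.2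
    exact (mem_locAt_iff p₂ _).2 ⟨az, sz, fun h => hsz (h₂ h), hz⟩

end Abstract

/-- **Leaf WPN** (`H495.AlgP.WPNodeLeaf`, VERBATIM): wild purity at a crossing point of a
semistable chart. -/
theorem wpNodeLeaf : H495.AlgP.WPNodeLeaf := by
  intro R E F _ _ _ _ _ _ _ _ _ _ _ _ _ p hp _ hpm ζ hζ w x B hB c _ u hu hdiv hdeep n hn _ h1 h2
  obtain ⟨hnoeth, hic, hfr⟩ := Fermat.Agent.A2.Alg.H34.chart_instances' w x B hB
  haveI := hnoeth
  haveI := hic
  haveI := hfr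
  haveI := c.prime₁
  haveI := c.prime₂
  haveI := hn.isPrime
  haveI : IsDedekindDomain (B ⧸ c.p₁) :=
    Fermat.Agent.A2.Alg.H132.isDedekindDomain_quotient_p₁ w x B hB c
  haveI : IsDedekindDomain (B ⧸ c.p₂) :=
    Fermat.Agent.A2.Alg.H132.isDedekindDomain_quotient_p₂ w x B hB c
  -- `λ = ζ - 1`
  obtain ⟨ε, hε, hlam⟩ := wpn_lam_pow hp hζ
  have hlam0 : ζ - 1 ≠ 0 := sub_ne_zero.2 (hζ.ne_one hp.one_lt)
  obtain ⟨e, η, hη⟩ := IsDiscreteValuationRing.eq_unit_mul_pow_irreducible hlam0 hB.hw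
  have he : 0 < e := by
    rcases Nat.eq_zero_or_pos e with rfl | he
    · exfalso
      rw [pow_zero, mul_one] at hη
      have h1 : IsUnit ((ζ - 1) ^ (p - 1)) := by
        rw [hη]
        exact (Units.isUnit η).pow _
      rw [hlam] at h1
      have h2 : IsUnit (p : R) := isUnit_of_mul_isUnit_left h1
      exact (IsLocalRing.mem_maximalIdeal _).1 hpm h2
    · exact he
  -- `w ≠ 0` in `B`
  have hinj : Function.Injective (algebraMap R F) := by
    rw [IsScalarTower.algebraMap_eq R E F]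
    exact (algebraMap E F).injective.comp (IsFractionRing.injective R E)
  have hw0 : algebraMap R B w ≠ 0 := by
    intro h
    apply hB.hw.ne_zero
    apply hinj
    have := congrArg (fun b : B => (b : F)) h
    simpa using this
  -- the deep hypotheses
  have hdeep₁ : ∃ a b : B, b ∉ c.p₁ ∧
      a - b ∈ Ideal.span {algebraMap R B (ζ - 1) ^ p * algebraMap R B w} ∧
      u * algebraMap B F b = algebraMap B F a := by
    obtain ⟨a, b, hb, hab, e⟩ := hdeep.1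
    refine ⟨a, b, hb, ?_, e⟩
    rw [← map_pow, ← map_mul]
    exact hab
  have hdeep₂ : ∃ a b : B, b ∉ c.p₂ ∧
      a - b ∈ Ideal.span {algebraMap R B (ζ - 1) ^ p * algebraMap R B w} ∧
      u * algebraMap B F b = algebraMap B F a := by
    obtain ⟨a, b, hb, hab, e⟩ := hdeep.2
    refine ⟨a, b, hb, ?_, e⟩
    rw [← map_pow, ← map_mul]
    exact hab
  obtain ⟨d, hd0, ⟨a, b, hb, hab, e₀⟩, ⟨a₁, b₁, hb₁, hab₁, e₁⟩, ⟨a₂, b₂, hb₂, hab₂, e₂⟩⟩ :=
    wpn_abstract (F := F) hw0 c.p₁ c.p₂ n c.inf_eq c.not_le₁₂ c.not_le₂₁ c.transversal h1 h2 hp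
      (lam := algebraMap R B (ζ - 1)) (ε := algebraMap R B ε) (η := algebraMap R B (η : R))
      (e := e) (hε.map _) (by rw [← map_pow, hlam, map_mul, map_natCast])
      ((Units.isUnit η).map _) he (by rw [hη, map_mul, map_pow]) hu
      (Fermat.Agent.A2.Alg.H132.hdiv_of_divisibleDiv w hB.hw B p u hdiv) hdeep₁ hdeep₂
  refine ⟨d, hd0, ⟨a, b, hb, ?_, e₀⟩, ⟨0, a₁, b₁, hb₁, hab₁, ?_⟩, ⟨0, a₂, b₂, hb₂, hab₂, ?_⟩⟩
  · rw [map_pow]
    exact hab
  · rw [pow_zero, map_one, one_mul]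
    exact e₁
  · rw [pow_zero, map_one, one_mul]
    exact e₂

end Fermat.Agent.Ribet.H224

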