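import Fermat.Agent.Ribet.H495.AlgPAsm
import Fermat.Agent.Ribet.H913.WPSmooth
import Fermat.Agent.Ribet.H224.WPNode
import Fermat.Agent.Ribet.H552.GlueP

/-!
# RIBET row 38, WALL-p, W-ALGP (I5): `AlgPStatement`, UNCONDITIONAL  (assembly, helper224)

`H495.AlgP.algP_of_leaves` on the three landed leaves:
WPS (`H913.wpSmoothLeaf`), WPN (`H224.wpNodeLeaf`), GLUE-p (`H552.glueP`).
-/

set_option autoImplicit false

namespace Fermat.Agent.Ribet.H224

/-- **ALG-p**, unconditional (route S-p of helper495). -/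
theorem algP_unconditional : H495.AlgP.AlgPStatement :=
  H495.AlgP.algP_of_leaves H913.wpSmoothLeaf wpNodeLeaf H552.glueP

end Fermat.Agent.Ribet.H224
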