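import Fermat.Agent.Ribet.H224.WPNewton
import Fermat.Agent.A2.H609.ChartPrep

/-!
# RIBET row 38, WALL-p, W-ALGP leaf WPN: the branch calculus  (helper224)

`B` a domain with fraction field `F`, `q` a prime of `B` (a component of the special fibre),
`V = B_q = locAt F q`.  Elementwise forms (fractions with denominators outside `q`):

* `wpn_lam_pow`        : `(ζ - 1) ^ (p - 1) = p · unit`;
* `wpn_branch_newton`  : `u ∈ 1 + lam^p w V ⟹ u = H ^ p (1 + lam^p w^k c)` with `H, c ∈ V`, every `k`;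
* `wpn_branch_pthPow`  : the branch hypothesis of `H704.I6.WildPurityStatement` for `g = a b^(p-1)`,
  `u = a / b`;
* `wpn_branch_close`   : `u ∈ 1 + lam^p w V`, `u d ^ p ∈ 1 + lam^p V ⟹ d ∈ 1 + lam V`.
-/

set_option autoImplicit false
set_option linter.unusedSectionVars false

namespace Fermat.Agent.Ribet.H224

open Fermat.Agent.A2.H849 Fermat.Agent.A2.H609 Finset

/-- `(ζ - 1) ^ (p - 1) = p · unit` for a primitive `p`-th root of unity in a domain. -/
theorem wpn_lam_pow {R : Type*} [CommRing R] [IsDomain R] {p : ℕ} (hp : p.Prime) {ζ : R}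
    (hζ : IsPrimitiveRoot ζ p) : ∃ ε : R, IsUnit ε ∧ (ζ - 1) ^ (p - 1) = (p : R) * ε := by
  have hpp : p = (p - 1) + 1 := by have := hp.two_le; omega
  have hζ' : IsPrimitiveRoot ζ ((p - 1) + 1) := by rw [← hpp]; exact hζ
  have hprod := hζ'.prod_pow_sub_one_eq_order
  have hex : ∀ k : ℕ, ∃ v : Rˣ, k ∈ range (p - 1) → (ζ - 1) * v = ζ ^ (k + 1) - 1 := by
    intro k
    by_cases hk : k ∈ range (p - 1)
    · have hk' : k + 1 < p := by rw [mem_range] at hk; omega
      have hcop : (k + 1).Coprime p :=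
        (Nat.coprime_comm.1 ((Nat.Prime.coprime_iff_not_dvd hp).2
          (Nat.not_dvd_of_pos_of_lt (Nat.succ_pos k) hk')))
      obtain ⟨v, hv⟩ := hζ.associated_sub_one_pow_sub_one_of_coprime hcop
      exact ⟨v, fun _ => hv⟩
    · exact ⟨1, fun h => absurd h hk⟩
  choose v hv using hex
  have h1 : ∏ k ∈ range (p - 1), (ζ ^ (k + 1) - 1)
      = (ζ - 1) ^ (p - 1) * ((∏ k ∈ range (p - 1), v k : Rˣ) : R) := by
    rw [Units.coe_prod]
    calc ∏ k ∈ range (p - 1), (ζ ^ (k + 1) - 1)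
        = ∏ k ∈ range (p - 1), ((ζ - 1) * ((v k : Rˣ) : R)) :=
          Finset.prod_congr rfl fun k hk => (hv k hk).symm
      _ = (ζ - 1) ^ (p - 1) * ∏ k ∈ range (p - 1), ((v k : Rˣ) : R) := by
          rw [Finset.prod_mul_distrib, Finset.prod_const, Finset.card_range]
  set W : Rˣ := (-1) ^ (p - 1) * ∏ k ∈ range (p - 1), v k with hW
  have h2 : (ζ - 1) ^ (p - 1) * (W : R) = (p : R) := by
    have h3 : ((p - 1 : ℕ) : R) + 1 = (p : R) := by
      rw [← Nat.cast_succ]
      congr 1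
      omega
    rw [← h3, ← hprod, h1, hW]
    push_cast
    ring
  refine ⟨((W⁻¹ : Rˣ) : R), Units.isUnit _, ?_⟩
  rw [← h2, mul_assoc, Units.mul_inv, mul_one]

section Branch

variable {B : Type*} [CommRing B] [IsDomain B]
variable {F : Type*} [Field F] [Algebra B F] [IsFractionRing B F]

omit [IsDomain B] in
/-- `b ∉ q ⟹ algebraMap b ≠ 0`. -/
theorem wpn_ne_zero {q : Ideal B} {b : B} (hb : b ∉ q) : algebraMap B F b ≠ 0 := by
  intro h
  apply hb
  have : b = 0 := IsFractionRing.injective B F (by rw [h, map_zero])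
  rw [this]
  exact q.zero_mem

/-- The deep hypothesis in fraction form: `u = 1 + lam^p w (s / b)`. -/
theorem wpn_deep_frac {q : Ideal B} {lam w : B} {p : ℕ} {u : F}
    (hdeep : ∃ a b : B, b ∉ q ∧ a - b ∈ Ideal.span {lam ^ p * w} ∧
      u * algebraMap B F b = algebraMap B F a) :
    ∃ s b : B, b ∉ q ∧ u = 1 + algebraMap B F lam ^ p * algebraMap B F w *
      (algebraMap B F s * (algebraMap B F b)⁻¹) := by
  obtain ⟨a, b, hb, hab, e⟩ := hdeep
  obtain ⟨s, hs⟩ := Ideal.mem_span_singleton'.1 hab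
  have hb0 : algebraMap B F b ≠ 0 := wpn_ne_zero hb
  refine ⟨s, b, hb, ?_⟩
  have ha : algebraMap B F a = algebraMap B F b +
      algebraMap B F s * (algebraMap B F lam ^ p * algebraMap B F w) := by
    have : a = b + s * (lam ^ p * w) := by rw [hs]; ring
    rw [this]
    simp only [map_add, map_mul, map_pow]
  have hu : u = algebraMap B F a * (algebraMap B F b)⁻¹ := by
    rw [← e, mul_assoc, mul_inv_cancel₀ hb0, mul_one]
  rw [hu, ha]
  field_simp

/-- **Newton on a branch**: `u ∈ 1 + lam^p w B_q` is, for every `k ≥ 1`, of the form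
`(α/ρ) ^ p (1 + lam^p w^k γ/σ)` with `ρ, σ ∉ q`. -/
theorem wpn_branch_newton (q : Ideal B) [q.IsPrime] {p : ℕ} (hp : p.Prime) {lam κ w : B}
    (hκ : IsUnit κ) (hpl : (p : B) = lam ^ (p - 1) * κ) (hwq : w ∈ q) {u : F}
    (hdeep : ∃ a b : B, b ∉ q ∧ a - b ∈ Ideal.span {lam ^ p * w} ∧
      u * algebraMap B F b = algebraMap B F a)
    (k : ℕ) (hk : 1 ≤ k) :
    ∃ α ρ γ σ : B, ρ ∉ q ∧ σ ∉ q ∧
      u * algebraMap B F ρ ^ p * algebraMap B F σ =
        algebraMap B F α ^ p *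
          (algebraMap B F σ + algebraMap B F lam ^ p * algebraMap B F w ^ k * algebraMap B F γ) := by
  obtain ⟨s, b, hb, hu⟩ := wpn_deep_frac hdeep
  have hb0 : algebraMap B F b ≠ 0 := wpn_ne_zero hb
  let T : locAt F q := ⟨algebraMap B F s * (algebraMap B F b)⁻¹, (mem_locAt_iff q _).2
    ⟨s, b, hb, rfl⟩⟩
  have hπ : algebraMap B (locAt F q) w ∈ IsLocalRing.maximalIdeal (locAt F q) :=
    (IsLocalization.AtPrime.to_map_mem_maximal_iff (locAt F q) q w).2 hwq
  have hpl' : ((p : ℕ) : locAt F q) = algebraMap B (locAt F q) lam ^ (p - 1) *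
      algebraMap B (locAt F q) κ := by
    rw [← map_pow, ← map_mul, ← hpl, map_natCast]
  obtain ⟨H, c', -, e⟩ := wpn_newton hp (hκ.map (algebraMap B (locAt F q))) hpl' hπ T k hk
  obtain ⟨α, ρ, hρ, hH⟩ := (mem_locAt_iff q (H : F)).1 H.2
  obtain ⟨γ, σ, hσ, hc'⟩ := (mem_locAt_iff q (c' : F)).1 c'.2
  have hρ0 : algebraMap B F ρ ≠ 0 := wpn_ne_zero hρ
  have hσ0 : algebraMap B F σ ≠ 0 := wpn_ne_zero hσ
  have eF := congrArg (fun z : locAt F q => (z : F)) e
  simp only [Subalgebra.coe_add, Subalgebra.coe_mul, Subalgebra.coe_pow, Subalgebra.coe_one,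
    coe_algebraMap_locAt] at eF
  have hT : (T : F) = algebraMap B F s * (algebraMap B F b)⁻¹ := rfl
  rw [hT, ← hu, hH, hc'] at eF
  refine ⟨α, ρ, γ, σ, hρ, hσ, ?_⟩
  have h1 : (algebraMap B F α * (algebraMap B F ρ)⁻¹) ^ p * algebraMap B F ρ ^ p
      = algebraMap B F α ^ p := by
    rw [← mul_pow, mul_assoc, inv_mul_cancel₀ hρ0, mul_one]
  have h2 : (1 + algebraMap B F lam ^ p * algebraMap B F w ^ k *
      (algebraMap B F γ * (algebraMap B F σ)⁻¹)) * algebraMap B F σ
      = algebraMap B F σ + algebraMap B F lam ^ p * algebraMap B F w ^ k * algebraMap B F γ := by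
    field_simp
  rw [← h1, ← h2, eF]
  ring

/-- **The branch hypothesis of WPUR**, inside `B`: for `u = a / b`, `g = a b ^ (p - 1)`
(`= u b ^ p`) is a `p`-th power modulo `w ^ k` in `B_q`, for every `k`. -/
theorem wpn_branch_pthPow (q : Ideal B) [q.IsPrime] {p : ℕ} (hp : p.Prime) {lam κ w : B}
    (hκ : IsUnit κ) (hpl : (p : B) = lam ^ (p - 1) * κ) (hwq : w ∈ q) {u : F}
    (hdeep : ∃ a b : B, b ∉ q ∧ a - b ∈ Ideal.span {lam ^ p * w} ∧
      u * algebraMap B F b = algebraMap B F a)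
    {a b : B} (hab : u * algebraMap B F b = algebraMap B F a) (k : ℕ) :
    ∃ h r t : B, r ∉ q ∧ (a * b ^ (p - 1)) * r ^ p - h ^ p = w ^ k * t := by
  rcases Nat.eq_zero_or_pos k with rfl | hk
  · refine ⟨0, 1, a * b ^ (p - 1), fun h => ?_, ?_⟩
    · exact (inferInstance : q.IsPrime).ne_top ((Ideal.eq_top_iff_one q).2 h)
    · rw [zero_pow hp.ne_zero]
      ring
  obtain ⟨α, ρ, γ, σ, hρ, hσ, e⟩ := wpn_branch_newton q hp hκ hpl hwq hdeep k hk
  refine ⟨α * b * σ, ρ * σ, lam ^ p * γ * α ^ p * b ^ p * σ ^ (p - 1), fun h => ?_, ?_⟩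
  · rcases (inferInstance : q.IsPrime).mem_or_mem h with h | h
    · exact hρ h
    · exact hσ h
  · apply IsFractionRing.injective B F
    have hpp : p = (p - 1) + 1 := by have := hp.two_le; omega
    have hb : algebraMap B F b ^ p = algebraMap B F b ^ (p - 1) * algebraMap B F b := by
      rw [← pow_succ, ← hpp]
    have hσp : algebraMap B F σ ^ p = algebraMap B F σ ^ (p - 1) * algebraMap B F σ := by
      rw [← pow_succ, ← hpp]
    simp only [map_sub, map_mul, map_pow]
    rw [← hab]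
    have e' : u * algebraMap B F b ^ p * (algebraMap B F ρ ^ p * algebraMap B F σ ^ p)
        = (u * algebraMap B F ρ ^ p * algebraMap B F σ) *
          (algebraMap B F b ^ p * algebraMap B F σ ^ (p - 1)) := by
      rw [hσp]
      ring
    have e'' : u * algebraMap B F b * algebraMap B F b ^ (p - 1) = u * algebraMap B F b ^ p := by
      rw [hb]
      ring
    rw [mul_pow, e'', e', e, mul_pow, mul_pow, hσp]
    ring

/-- **Closing on a branch**: if `u ∈ 1 + lam^p w B_q` and `u d ^ p ∈ 1 + lam^p B_q` then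
`d ∈ 1 + lam B_q`. -/
theorem wpn_branch_close [IsIntegrallyClosed B] (q : Ideal B) [q.IsPrime]
    [ValuationRing (locAt F q)] {p : ℕ} (hp : p.Prime)
    {lam κ w : B} (hpl : (p : B) = lam ^ (p - 1) * κ) (hwq : w ∈ q) {u : F}
    (hdeep : ∃ a b : B, b ∉ q ∧ a - b ∈ Ideal.span {lam ^ p * w} ∧
      u * algebraMap B F b = algebraMap B F a)
    {d : F} {z : F} (hz : z ∈ locAt F q) (hd : u * d ^ p = 1 + algebraMap B F lam ^ p * z) :
    ∃ a b : B, b ∉ q ∧ a - b ∈ Ideal.span {lam} ∧ d * algebraMap B F b = algebraMap B F a := by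
  obtain ⟨s, b, hb, hu⟩ := wpn_deep_frac hdeep
  have hb0 : algebraMap B F b ≠ 0 := wpn_ne_zero hb
  set V := locAt F q with hV
  have hcoe : ∀ b : B, ((algebraMap B V b : V) : F) = algebraMap B F b := fun _ => rfl
  have hlamV : algebraMap B F lam ∈ V := V.algebraMap_mem lam
  have hwV : algebraMap B F w ∈ V := V.algebraMap_mem w
  have htV : algebraMap B F s * (algebraMap B F b)⁻¹ ∈ V := (mem_locAt_iff q _).2 ⟨s, b, hb, rfl⟩
  -- `u` is a unit of `V`
  have hbq : b + lam ^ p * w * s ∉ q := by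
    intro h
    apply hb
    have : b = (b + lam ^ p * w * s) - lam ^ p * w * s := by ring
    rw [this]
    exact q.sub_mem h (q.mul_mem_right _ (q.mul_mem_left _ hwq))
  have hbq0 : algebraMap B F (b + lam ^ p * w * s) ≠ 0 := wpn_ne_zero hbq
  have hu' : u = algebraMap B F (b + lam ^ p * w * s) * (algebraMap B F b)⁻¹ := by
    rw [hu]
    simp only [map_add, map_mul, map_pow]
    field_simp
  have hu0 : u ≠ 0 := by
    rw [hu']
    exact mul_ne_zero hbq0 (inv_ne_zero hb0)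
  have huinv : u⁻¹ ∈ V := by
    rw [hV, mem_locAt_iff]
    refine ⟨b, b + lam ^ p * w * s, hbq, ?_⟩
    rw [hu', mul_inv, inv_inv, mul_comm]
  -- `d ^ p ∈ V`, hence `d ∈ V`
  have hdp : d ^ p = (1 + algebraMap B F lam ^ p * z) * u⁻¹ := by
    rw [← hd, mul_comm u, mul_assoc, mul_inv_cancel₀ hu0, mul_one]
  have hdpV : d ^ p ∈ V := by
    rw [hdp]
    exact V.mul_mem (V.add_mem V.one_mem (V.mul_mem (V.pow_mem hlamV p) hz)) huinv
  have hint : IsIntegral V (d ^ p) := by
    have : d ^ p = algebraMap V F ⟨d ^ p, hdpV⟩ := rfl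
    rw [this]
    exact isIntegral_algebraMap
  obtain ⟨D, hD⟩ := IsIntegrallyClosed.exists_algebraMap_eq_of_isIntegral_pow (R := V) (K := F)
    hp.pos hint
  have hDd : (D : F) = d := hD
  -- `lam ^ p ∣ D ^ p - 1`
  let Q : V := ⟨(z - algebraMap B F w * (algebraMap B F s * (algebraMap B F b)⁻¹)) * u⁻¹,
    V.mul_mem (V.sub_mem hz (V.mul_mem hwV htV)) huinv⟩
  have hdvd : algebraMap B V lam ^ p ∣ D ^ p - 1 := by
    refine ⟨Q, ?_⟩
    apply Subtype.ext
    simp only [Subalgebra.coe_sub, Subalgebra.coe_mul, Subalgebra.coe_pow, Subalgebra.coe_one,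
      hcoe]
    rw [hDd, hdp]
    show _ = algebraMap B F lam ^ p *
      ((z - algebraMap B F w * (algebraMap B F s * (algebraMap B F b)⁻¹)) * u⁻¹)
    have h1 : u * u⁻¹ = 1 := mul_inv_cancel₀ hu0
    linear_combination (-u⁻¹) * hu + h1
  have hplV : ((p : ℕ) : V) = algebraMap B V lam ^ (p - 1) * algebraMap B V κ := by
    rw [← map_pow, ← map_mul, ← hpl, map_natCast]
  obtain ⟨q', hq'⟩ := wpn_root_close hp hplV hdvd
  obtain ⟨aq, sq, hsq, hq'F⟩ := (mem_locAt_iff q (q' : F)).1 q'.2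
  have hsq0 : algebraMap B F sq ≠ 0 := wpn_ne_zero hsq
  have hq'F' := congrArg (fun z : V => (z : F)) hq'
  simp only [Subalgebra.coe_sub, Subalgebra.coe_mul, Subalgebra.coe_one, hcoe] at hq'F'
  rw [hDd, hq'F] at hq'F'
  refine ⟨sq + lam * aq, sq, hsq, ?_, ?_⟩
  · rw [add_sub_cancel_left]
    exact Ideal.mul_mem_right _ _ (Ideal.mem_span_singleton_self _)
  · have hd' : d = 1 + algebraMap B F lam * (algebraMap B F aq * (algebraMap B F sq)⁻¹) := by
      linear_combination hq'F'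
    rw [hd']
    simp only [map_add, map_mul]
    field_simp

end Branch

end Fermat.Agent.Ribet.H224
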