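import Fermat.Agent.Ribet.Spec
import Fermat.Agent.Lib.VC.BaseChange

/-!
# Row RIBET, piece G1b: irreducibility of the mod-`n` representation is invariant under a
change of variables over `ℚ`  (helper224)

* `torsEquiv E C n`      : `(C • E)[n](ℚ̄) ≃+ E[n](ℚ̄)` (restriction of `Lib.VC.vcPointBC`);
* `torsEquiv_smul`       : it commutes with the Galois action;
* `irr_smul`             : `GaloisRepIsIrreducible ℚ E n → GaloisRepIsIrreducible ℚ (C • E) n`;
* `irr_of_smul`          : the converse;
* `irrTransport`         : `Spec.IrrTransportStatement`.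
-/

set_option autoImplicit false

open WeierstrassCurve WeierstrassCurve.Affine WeierstrassCurve.Affine.Point

namespace Fermat.Agent.Ribet.H224

open Fermat.Agent.Lib.VC

local notation "Qbar" => AlgebraicClosure ℚ

/-- The change of variables restricted to `n`-torsion. -/
noncomputable def torsEquiv (E : WeierstrassCurve ℚ) (C : VariableChange ℚ) (n : ℕ) :
    Submodule.torsionBy ℤ ((C • E)⁄Qbar).Point n ≃+ Submodule.torsionBy ℤ (E⁄Qbar).Point n where
  toFun x := ⟨vcPointBC E C Qbar x.1, by
    have hx := x.2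
    rw [Submodule.mem_torsionBy_iff] at hx ⊢
    rw [← map_zsmul, hx, _root_.map_zero]⟩
  invFun y := ⟨(vcPointBC E C Qbar).symm y.1, by
    have hy := y.2
    rw [Submodule.mem_torsionBy_iff] at hy ⊢
    rw [← map_zsmul, hy, _root_.map_zero]⟩
  left_inv x := Subtype.ext ((vcPointBC E C Qbar).symm_apply_apply x.1)
  right_inv y := Subtype.ext ((vcPointBC E C Qbar).apply_symm_apply y.1)
  map_add' x y := Subtype.ext (map_add (vcPointBC E C Qbar) x.1 y.1)

theorem torsEquiv_coe (E : WeierstrassCurve ℚ) (C : VariableChange ℚ) (n : ℕ)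
    (x : Submodule.torsionBy ℤ ((C • E)⁄Qbar).Point n) :
    ((torsEquiv E C n x : Submodule.torsionBy ℤ (E⁄Qbar).Point n) : (E⁄Qbar).Point)
      = vcPointBC E C Qbar x.1 := rfl

theorem torsEquiv_symm_coe (E : WeierstrassCurve ℚ) (C : VariableChange ℚ) (n : ℕ)
    (y : Submodule.torsionBy ℤ (E⁄Qbar).Point n) :
    (((torsEquiv E C n).symm y : Submodule.torsionBy ℤ ((C • E)⁄Qbar).Point n) :
        ((C • E)⁄Qbar).Point)
      = (vcPointBC E C Qbar).symm y.1 := rfl

/-- Galois-equivariance of the change of variables on points. -/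
theorem vcPointBC_smul (E : WeierstrassCurve ℚ) (C : VariableChange ℚ)
    (σ : Qbar ≃ₐ[ℚ] Qbar) (P : ((C • E)⁄Qbar).Point) :
    vcPointBC E C Qbar (σ • P) = σ • vcPointBC E C Qbar P :=
  (map_vcPointBC E C σ.toAlgHom P).symm

/-- Galois-equivariance of the change of variables on `n`-torsion. -/
theorem torsEquiv_smul (E : WeierstrassCurve ℚ) (C : VariableChange ℚ) (n : ℕ)
    (σ : Qbar ≃ₐ[ℚ] Qbar) (x : Submodule.torsionBy ℤ ((C • E)⁄Qbar).Point n) :
    torsEquiv E C n (σ • x) = σ • torsEquiv E C n x :=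
  Subtype.ext (vcPointBC_smul E C σ x.1)

theorem torsEquiv_symm_smul (E : WeierstrassCurve ℚ) (C : VariableChange ℚ) (n : ℕ)
    (σ : Qbar ≃ₐ[ℚ] Qbar) (y : Submodule.torsionBy ℤ (E⁄Qbar).Point n) :
    (torsEquiv E C n).symm (σ • y) = σ • (torsEquiv E C n).symm y := by
  apply (torsEquiv E C n).injective
  rw [torsEquiv_smul, AddEquiv.apply_symm_apply, AddEquiv.apply_symm_apply]

/-- Irreducibility passes from `E` to `C • E`. -/
theorem irr_smul (E : WeierstrassCurve ℚ) (C : VariableChange ℚ) (n : ℕ)
    (h : GaloisRepIsIrreducible (K := Qbar) ℚ E n) :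
    GaloisRepIsIrreducible (K := Qbar) ℚ (C • E) n := by
  obtain ⟨hnt, hirr⟩ := h
  refine ⟨?_, ?_⟩
  · have := hnt
    exact (torsEquiv E C n).symm.injective.nontrivial
  · intro N' hN'
    -- the `ZMod n`-linear version of `(torsEquiv E C n).symm`
    let g : Submodule.torsionBy ℤ (E⁄Qbar).Point n →ₗ[ZMod n]
        Submodule.torsionBy ℤ ((C • E)⁄Qbar).Point n :=
      AddMonoidHom.toZModLinearMap n ((torsEquiv E C n).symm : _ →+ _)
    have hg : ∀ y, g y = (torsEquiv E C n).symm y := fun _ => rfl
    have hstab : IsGaloisStable ℚ (N'.comap g) := by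
      intro σ y hy
      rw [Submodule.mem_comap] at hy ⊢
      rw [hg] at hy ⊢
      rw [torsEquiv_symm_smul]
      exact hN' σ _ hy
    rcases hirr _ hstab with h0 | h1
    · left
      rw [eq_bot_iff]
      intro x hx
      have hx' : torsEquiv E C n x ∈ N'.comap g := by
        rw [Submodule.mem_comap, hg, AddEquiv.symm_apply_apply]
        exact hx
      rw [h0, Submodule.mem_bot] at hx'
      rw [Submodule.mem_bot]
      exact (torsEquiv E C n).injective (hx'.trans (_root_.map_zero _).symm)
    · right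
      rw [eq_top_iff]
      intro x _
      have hx' : torsEquiv E C n x ∈ N'.comap g := by
        rw [h1]; exact Submodule.mem_top
      rw [Submodule.mem_comap, hg, AddEquiv.symm_apply_apply] at hx'
      exact hx'

/-- Irreducibility passes from `C • E` to `E`. -/
theorem irr_of_smul (E : WeierstrassCurve ℚ) (C : VariableChange ℚ) (n : ℕ)
    (h : GaloisRepIsIrreducible (K := Qbar) ℚ (C • E) n) :
    GaloisRepIsIrreducible (K := Qbar) ℚ E n := by
  have h' := irr_smul (C • E) C⁻¹ n h
  rwa [inv_smul_smul] at h'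

/-- Irreducibility only depends on the `ℚ`-isomorphism class. -/
theorem irr_smul_iff (E : WeierstrassCurve ℚ) (C : VariableChange ℚ) (n : ℕ) :
    GaloisRepIsIrreducible (K := Qbar) ℚ (C • E) n ↔
      GaloisRepIsIrreducible (K := Qbar) ℚ E n :=
  ⟨irr_of_smul E C n, irr_smul E C n⟩

/-- **(G1b)** Irreducibility of the mod-`n` representation only depends on the
`ℚ`-isomorphism class: it passes from `E` to any integral model `W` of `E`. -/
theorem irrTransport : Spec.IrrTransportStatement := by
  intro E W n hW hE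
  obtain ⟨C, hC⟩ := hW
  have h := irr_smul E C n hE
  rw [hC] at h
  exact h

/-- The converse direction of (G1b), for free. -/
theorem irrTransport_symm (E : WeierstrassCurve ℚ) (W : WeierstrassCurve ℤ) (n : ℕ)
    (hW : W.IsIntegralModelOf E) (h : W.ModRepIsIrreducible n) :
    GaloisRepIsIrreducible (K := Qbar) ℚ E n := by
  obtain ⟨C, hC⟩ := hW
  apply irr_of_smul E C n
  rw [hC]
  exact h

end Fermat.Agent.Ribet.H224
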