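import Mathlib

/-!
# RIBET row 38, WALL-p, W-ALGP leaf WPN: the Mathlib-only calculus  (helper224)

`p` a prime, `A` a commutative ring, `lam, κ ∈ A` with `p = lam ^ (p - 1) * κ` (`lam = ζ - 1`).

* `wpn_one_add_pow`  : `(1 + y) ^ p = 1 + p y + y ^ p + p y² r`.
* `wpn_newton_step`  : in a local ring, `1 + lam^p π^j c = H ^ p (1 + lam^p π^(j+1) c')`, `j ≥ 1`
  (one Newton step; no denominators, the step stays inside `A`).
* `wpn_newton`       : `1 + lam^p π c = H ^ p (1 + lam^p π^k c')` for every `k ≥ 1`: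
  an element of `1 + lam^p π A` is a `p`-th power to any `π`-adic precision.
* `wpn_root_close`   : in a valuation ring, `lam^p ∣ d ^ p - 1 ⟹ lam ∣ d - 1`.
-/

set_option autoImplicit false

namespace Fermat.Agent.Ribet.H224

open Finset

/-- `(1 + y) ^ p = 1 + p y + y ^ p + p y² r`. -/
theorem wpn_one_add_pow {A : Type*} [CommRing A] {p : ℕ} (hp : p.Prime) (y : A) :
    ∃ r : A, (1 + y) ^ p = 1 + p * y + y ^ p + p * y ^ 2 * r := by
  have h := add_pow_prime_eq hp y (1 : A)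
  have h1 : 1 ∈ Ioo 0 p := by
    rw [mem_Ioo]
    exact ⟨Nat.zero_lt_one, hp.one_lt⟩
  have hsum : ∃ r : A, ∑ k ∈ Ioo 0 p, y ^ (k - 1) * (1 : A) ^ (p - k - 1) * ↑(p.choose k / p)
      = 1 + y * r := by
    rw [← Finset.add_sum_erase _ _ h1]
    have hfirst : y ^ (1 - 1) * (1 : A) ^ (p - 1 - 1) * ((p.choose 1 / p : ℕ) : A) = 1 := by
      rw [Nat.choose_one_right, Nat.div_self hp.pos]
      simp
    rw [hfirst]
    have hdvd : y ∣ ∑ k ∈ (Ioo 0 p).erase 1,
        y ^ (k - 1) * (1 : A) ^ (p - k - 1) * ↑(p.choose k / p) := by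
      apply Finset.dvd_sum
      intro k hk
      rw [mem_erase, mem_Ioo] at hk
      have hk2 : k - 1 = (k - 2) + 1 := by omega
      rw [hk2, pow_succ]
      exact ⟨y ^ (k - 2) * (1 : A) ^ (p - k - 1) * ↑(p.choose k / p), by ring⟩
    obtain ⟨r, hr⟩ := hdvd
    exact ⟨r, by rw [hr]⟩
  obtain ⟨r, hr⟩ := hsum
  refine ⟨r, ?_⟩
  rw [add_comm (1 : A) y, h, hr]
  ring

/-- One Newton step, inside a local ring. -/
theorem wpn_newton_step {A : Type*} [CommRing A] [IsLocalRing A] {p : ℕ} (hp : p.Prime)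
    {lam π κ : A} (hκ : IsUnit κ) (hpl : (p : A) = lam ^ (p - 1) * κ)
    (hπ : π ∈ IsLocalRing.maximalIdeal A) {j : ℕ} (hj : 1 ≤ j) (c : A) :
    ∃ H c' : A, IsUnit H ∧
      1 + lam ^ p * π ^ j * c = H ^ p * (1 + lam ^ p * π ^ (j + 1) * c') := by
  obtain ⟨κ', hκ'⟩ := hκ.exists_right_inv
  set s : A := κ' * c with hs
  set y : A := lam * π ^ j * s with hy
  have hym : y ∈ IsLocalRing.maximalIdeal A := by
    rw [hy]
    apply Ideal.mul_mem_right
    apply Ideal.mul_mem_left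
    exact Ideal.pow_mem_of_mem _ hπ j (by omega)
  have hH : IsUnit (1 + y) := by
    by_contra h
    have h1 : 1 + y ∈ IsLocalRing.maximalIdeal A := (IsLocalRing.mem_maximalIdeal _).mpr h
    have h2 : (1 : A) ∈ IsLocalRing.maximalIdeal A := by
      have : (1 : A) = (1 + y) - y := by ring
      rw [this]
      exact Ideal.sub_mem _ h1 hym
    exact (Ideal.ne_top_iff_one _).mp (IsLocalRing.maximalIdeal.isMaximal A).ne_top h2
  obtain ⟨r, hr⟩ := wpn_one_add_pow hp y
  obtain ⟨Hi, hHi⟩ := hH.exists_right_inv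
  have hp2 := hp.two_le
  have hpp : lam ^ p = lam ^ (p - 1) * lam := by
    rw [← pow_succ]
    congr 1
    omega
  have hpj : π ^ (p * j) = π ^ (j + 1) * π ^ (p * j - j - 1) := by
    rw [← pow_add]
    congr 1
    have : j + 1 ≤ p * j := by nlinarith
    omega
  have hjj : π ^ (2 * j) = π ^ (j + 1) * π ^ (j - 1) := by
    rw [← pow_add]
    congr 1
    omega
  -- the expansion
  set m : A := π ^ (p * j - j - 1) * s ^ p + lam * π ^ (j - 1) * κ * s ^ 2 * r with hm
  have hexp : (1 + y) ^ p = 1 + lam ^ p * π ^ j * c + lam ^ p * π ^ (j + 1) * m := by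
    have e1 : (p : A) * y = lam ^ p * π ^ j * c := by
      rw [hpl, hy, hs, hpp]
      linear_combination (lam ^ (p - 1) * lam * π ^ j * c) * hκ'
    have e2 : y ^ p = lam ^ p * π ^ (j + 1) * (π ^ (p * j - j - 1) * s ^ p) := by
      rw [hy, mul_pow, mul_pow, ← pow_mul, mul_comm j p, hpj]
      ring
    have e3 : (p : A) * y ^ 2 * r
        = lam ^ p * π ^ (j + 1) * (lam * π ^ (j - 1) * κ * s ^ 2 * r) := by
      rw [hpl, hy, mul_pow, mul_pow, ← pow_mul, mul_comm j 2, hjj, hpp]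
      ring
    rw [hr, e1, e2, e3, hm]
    ring
  refine ⟨1 + y, -(m * Hi ^ p), hH, ?_⟩
  have hHp : (1 + y) ^ p * Hi ^ p = 1 := by
    rw [← mul_pow, hHi, one_pow]
  linear_combination (lam ^ p * π ^ (j + 1) * m) * hHp - hexp

/-- **Newton approximation below the Hensel bound is unnecessary above it**: an element of
`1 + lam ^ p π A` is a `p`-th power to any `π`-adic precision. -/
theorem wpn_newton {A : Type*} [CommRing A] [IsLocalRing A] {p : ℕ} (hp : p.Prime)
    {lam π κ : A} (hκ : IsUnit κ) (hpl : (p : A) = lam ^ (p - 1) * κ)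
    (hπ : π ∈ IsLocalRing.maximalIdeal A) (c : A) :
    ∀ k : ℕ, 1 ≤ k → ∃ H c' : A, IsUnit H ∧
      1 + lam ^ p * π * c = H ^ p * (1 + lam ^ p * π ^ k * c') := by
  intro k hk
  induction k, hk using Nat.le_induction with
  | base => exact ⟨1, c, isUnit_one, by ring⟩
  | succ k hk ih =>
    obtain ⟨H, c', hH, e⟩ := ih
    obtain ⟨H', c'', hH', e'⟩ := wpn_newton_step hp hκ hpl hπ hk c'
    refine ⟨H * H', c'', hH.mul hH', ?_⟩
    rw [e, e']
    ring

/-- In a valuation ring: `lam ^ p ∣ d ^ p - 1 ⟹ lam ∣ d - 1` (when `p = lam ^ (p-1) κ`). -/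
theorem wpn_root_close {V : Type*} [CommRing V] [IsDomain V] [ValuationRing V] {p : ℕ}
    (hp : p.Prime) {lam κ : V} (hpl : (p : V) = lam ^ (p - 1) * κ) {d : V}
    (h : lam ^ p ∣ d ^ p - 1) : lam ∣ d - 1 := by
  rcases ValuationRing.dvd_total lam (d - 1) with h1 | h1
  · exact h1
  obtain ⟨m, hm⟩ := h1
  set y : V := d - 1 with hy
  by_cases hy0 : y = 0
  · rw [hy0]
    exact dvd_zero _
  by_cases hmu : IsUnit m
  · obtain ⟨m', hm'⟩ := hmu.exists_right_inv
    exact ⟨m', by rw [hm]; linear_combination (-y) * hm'⟩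
  exfalso
  have hp2 := hp.two_le
  obtain ⟨r, hr⟩ := wpn_one_add_pow hp y
  have hd : d = 1 + y := by rw [hy]; ring
  have hpp : p - 1 = (p - 2) + 1 := by omega
  -- `d ^ p - 1 = y ^ p * (1 + m * t)`
  have hpy : (p : V) * y = y ^ p * (m * (m ^ (p - 2) * κ)) := by
    have e0 : y ^ p = y ^ (p - 1) * y := by
      rw [← pow_succ]
      congr 1
      omega
    rw [hpl, hm, mul_pow, e0, hpp, pow_succ m]
    ring
  have hfac : d ^ p - 1 = y ^ p * (1 + m * (m ^ (p - 2) * κ * (1 + y * r))) := by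
    rw [hd, hr]
    linear_combination (1 + y * r) * hpy
  have hmm : m ∈ IsLocalRing.maximalIdeal V := (IsLocalRing.mem_maximalIdeal _).mpr hmu
  have hunit : IsUnit (1 + m * (m ^ (p - 2) * κ * (1 + y * r))) := by
    by_contra hnu
    have h1 : 1 + m * (m ^ (p - 2) * κ * (1 + y * r)) ∈ IsLocalRing.maximalIdeal V :=
      (IsLocalRing.mem_maximalIdeal _).mpr hnu
    have h2 : (1 : V) ∈ IsLocalRing.maximalIdeal V := by
      have : (1 : V) = (1 + m * (m ^ (p - 2) * κ * (1 + y * r)))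
          - m * (m ^ (p - 2) * κ * (1 + y * r)) := by ring
      rw [this]
      exact Ideal.sub_mem _ h1 (Ideal.mul_mem_right _ _ hmm)
    exact (Ideal.ne_top_iff_one _).mp (IsLocalRing.maximalIdeal.isMaximal V).ne_top h2
  rw [hfac, hm, mul_pow] at h
  have h3 : m ^ p ∣ 1 + m * (m ^ (p - 2) * κ * (1 + y * r)) :=
    (mul_dvd_mul_iff_left (pow_ne_zero p hy0)).1 h
  have h4 : IsUnit (m ^ p) := isUnit_of_dvd_unit h3 hunit
  exact hmu ((isUnit_pow_iff hp.ne_zero).1 h4)

end Fermat.Agent.Ribet.H224
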